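import Fermat.Agent.CFT.Coh.Cyclic

/-!
# CFT / Global / Lift : the abstract lifting lemma

`E` a smooth `ℤ[G]`-module (think `E = Q_S^×`), `χ : G → ℤ/p` a smooth character, `χ σ = 1`,
`a ∈ E^G`.  If there is `β ∈ E` whose class in `E / pE` is fixed by `ker χ` and has norm the class
of `a`, then the cyclic class `(a, χ)` is cohomologous to a cocycle killed by `p`
(i.e. with values in `E[p] = μ_p`).

Explicitly `z = - ∑_{c : ℤ/p} [c] σ^[c] β`, `p φ(g) = g z - z - [χ g] a`, `x = (a,χ) + dφ`.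
-/

set_option autoImplicit false

namespace Fermat.Agent.CFT.Lift

open Fermat.Agent.CFT Finset

variable {G : Type} [Group G] {𝒰 : Levels G} {E : Type} [AddCommGroup E]
  {ρ : Representation ℤ G E} {p : ℕ} [Fact p.Prime]
  {χ : G →* Multiplicative (ZMod p)} {σ : G}

/-- lifting a level-constant cochain through a map, pointwise solvable -/
theorem exists_lift_C1_of_forall {X Y : Type} [AddCommGroup X] [AddCommGroup Y] (f : X → Y)
    {c : G → Y} (hc : c ∈ C1 ℤ Y 𝒰) (h : ∀ g, ∃ x, f x = c g) :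
    ∃ c' ∈ C1 ℤ X 𝒰, ∀ g, f (c' g) = c g := by
  classical
  let F : Y → X := fun y => if hy : ∃ x, f x = y then hy.choose else 0
  refine ⟨F ∘ c, hc.comp F, fun g => ?_⟩
  have : F (c g) = (h g).choose := dif_pos (h g)
  rw [Function.comp_apply, this]
  exact (h g).choose_spec

theorem sum_zmod_val {M : Type} [AddCommMonoid M] (f : ℕ → M) :
    ∑ c : ZMod p, f c.val = ∑ j ∈ range p, f j := by
  have hp : NeZero p := ⟨(Fact.out : p.Prime).ne_zero⟩
  refine Finset.sum_bij (fun c _ => c.val) (fun c _ => mem_range.2 (ZMod.val_lt c))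
    (fun c _ c' _ h => ZMod.val_injective p h)
    (fun j hj => ⟨(j : ZMod p), mem_univ _, ZMod.val_cast_of_lt (mem_range.1 hj)⟩)
    (fun c _ => rfl)

/-- the key computation: `z = - ∑_c [c] σ^[c] β` satisfies `g z - z ≡ [χ g] a` modulo `pE`. -/
theorem exists_primitive (hσ : χ σ = Multiplicative.ofAdd 1) {a β : E}
    (hβ : ∀ s ∈ χ.ker, ∃ e, ρ s β - β = p • e) (hN : ∃ e, a - pnorm ρ σ p β = p • e) :
    ∃ z : E, ∀ g, ∃ f, p • f = ρ g z - z - chiVal χ g • a := by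
  classical
  have hp : NeZero p := ⟨(Fact.out : p.Prime).ne_zero⟩
  let P : AddSubgroup E := AddMonoidHom.range (nsmulAddMonoidHom (α := E) p)
  have memP : ∀ x : E, x ∈ P ↔ ∃ e, p • e = x := fun x => Iff.rfl
  let π : E →+ E ⧸ P := QuotientAddGroup.mk' P
  have hπ0 : ∀ x : E, π x = 0 ↔ ∃ e, p • e = x := fun x => by
    rw [← memP]; exact QuotientAddGroup.eq_zero_iff x
  have hpQ : ∀ q : E ⧸ P, p • q = 0 := by
    intro q
    obtain ⟨e, rfl⟩ := QuotientAddGroup.mk'_surjective P q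
    rw [← map_nsmul]
    exact (hπ0 _).2 ⟨e, rfl⟩
  letI : Module (ZMod p) (E ⧸ P) := AddCommGroup.zmodModule hpQ
  have hval : ∀ (c : ZMod p) (q : E ⧸ P), c.val • q = c • q := fun c q => by
    rw [← Nat.cast_smul_eq_nsmul (ZMod p), ZMod.natCast_zmod_val]
  -- Lemma A
  have lemA : ∀ g g' : G, χ g = χ g' → π (ρ g β) = π (ρ g' β) := by
    intro g g' e
    have hs : g'⁻¹ * g ∈ χ.ker := by
      rw [MonoidHom.mem_ker, map_mul, map_inv, e, inv_mul_cancel]
    obtain ⟨e', he'⟩ := hβ _ hs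
    have h1 : g = g' * (g'⁻¹ * g) := by group
    have h2 : ρ g β - ρ g' β = p • ρ g' e' := by
      rw [← map_nsmul, ← he', map_sub, ← Module.End.mul_apply, ← map_mul, ← h1]
    rw [← sub_eq_zero, ← map_sub]
    exact (hπ0 _).2 ⟨_, h2.symm⟩
  let T : ZMod p → E := fun c => ρ (σ ^ c.val) β
  let t : ZMod p → E ⧸ P := fun c => π (T c)
  have hT : ∀ (g : G) (c : ZMod p), π (ρ g (T c)) = t (c + Multiplicative.toAdd (χ g)) := by
    intro g c
    change π (ρ g (ρ (σ ^ c.val) β)) = π (ρ (σ ^ (c + Multiplicative.toAdd (χ g)).val) β)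
    rw [← Module.End.mul_apply, ← map_mul]
    refine lemA _ _ ?_
    rw [map_mul, chi_pow hσ, chi_pow hσ, ZMod.natCast_zmod_val, ZMod.natCast_zmod_val, add_comm,
      ofAdd_add, ofAdd_toAdd]
  have hNt : π a = ∑ c : ZMod p, t c := by
    obtain ⟨e, he⟩ := hN
    have h1 : π (a - pnorm ρ σ p β) = 0 := (hπ0 _).2 ⟨e, he.symm⟩
    rw [map_sub, sub_eq_zero] at h1
    rw [h1, pnorm, ← sum_zmod_val (p := p) (fun j => ρ (σ ^ j) β), map_sum]
  refine ⟨- ∑ c : ZMod p, c.val • T c, fun g => ?_⟩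
  rw [← hπ0]
  set x : ZMod p := Multiplicative.toAdd (χ g) with hx
  have h1 : π (ρ g (- ∑ c : ZMod p, c.val • T c)) = - ∑ c : ZMod p, (c - x) • t c := by
    rw [map_neg, map_neg, map_sum, map_sum]
    congr 1
    rw [← Fintype.sum_equiv (Equiv.addRight x) (fun c => c • t (c + x)) (fun c => (c - x) • t c)
      (fun c => by simp)]
    refine Finset.sum_congr rfl fun c _ => ?_
    rw [map_nsmul, map_nsmul, hT, hval]
  have h2 : π (- ∑ c : ZMod p, c.val • T c) = - ∑ c : ZMod p, c • t c := by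
    rw [map_neg, map_sum]
    congr 1
    refine Finset.sum_congr rfl fun c _ => ?_
    rw [map_nsmul, hval]
  have h3 : π (chiVal χ g • a) = ∑ c : ZMod p, x • t c := by
    rw [map_nsmul, hNt, chiVal, hval, Finset.smul_sum]
  rw [map_sub, map_sub, h1, h2, h3, sub_neg_eq_add, neg_add_eq_sub, ← Finset.sum_sub_distrib,
    ← Finset.sum_sub_distrib]
  refine Finset.sum_eq_zero fun c _ => ?_
  rw [← sub_smul, ← sub_smul]
  simp

/-- **The abstract lifting lemma.** -/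
theorem exists_lift (hρ : IsSmooth 𝒰 ρ) (hσ : χ σ = Multiplicative.ofAdd 1)
    (hχ : ∃ U ∈ 𝒰.carrier, U ≤ χ.ker) {a β : E} (ha : ∀ g, ρ g a = a)
    (hβ : ∀ s ∈ χ.ker, ∃ e, ρ s β - β = p • e) (hN : ∃ e, a - pnorm ρ σ p β = p • e) :
    ∃ φ ∈ C1 ℤ E 𝒰, cyc χ a + d12 ρ φ ∈ Z2 𝒰 ρ ∧ p • (cyc χ a + d12 ρ φ) = 0 := by
  have hp : NeZero p := ⟨(Fact.out : p.Prime).ne_zero⟩
  obtain ⟨z, hz⟩ := exists_primitive hσ hβ hN
  have hy : (fun g => ρ g z - z - chiVal χ g • a) ∈ C1 ℤ E 𝒰 := by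
    refine Submodule.sub_mem _ (d01_mem_C1 hρ z) ?_
    obtain ⟨U, hU, hle⟩ := hχ
    exact ⟨U, hU, fun g s hs => by simp only [chiVal_mul_ker χ g (hle hs)]⟩
  obtain ⟨φ, hφ, hφy⟩ := exists_lift_C1_of_forall (fun f : E => p • f) hy hz
  refine ⟨φ, hφ, Submodule.add_mem _ (cyc_mem_Z2 χ hχ ha) (B2_le_Z2 hρ ⟨φ, hφ, rfl⟩), ?_⟩
  funext ⟨g, h⟩
  have e := chiVal_add χ g h
  have e' : (chiVal χ g + chiVal χ h) • a = (chiVal χ (g * h) + p * carry χ g h) • a := by rw [e]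
  rw [add_smul, add_smul, mul_smul] at e'
  simp only [Pi.smul_apply, Pi.add_apply, cyc_apply, d12_apply, smul_add, smul_sub, Pi.zero_apply]
  rw [← map_nsmul, hφy, hφy, hφy]
  simp only [map_sub, map_nsmul, ha, ← Module.End.mul_apply, ← map_mul]
  have e'' : p • carry χ g h • a = chiVal χ g • a + chiVal χ h • a - chiVal χ (g * h) • a := by
    rw [e']; abel
  rw [e'']
  abel

end Fermat.Agent.CFT.Lift
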