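import Fermat.Agent.S14.Approx
import Fermat.Agent.S14.Basic

/-!
# CFT / Global / Lift : the divisor computation in a number field (WP LIFT-GAMMA)

Pure number fields, `S14` language (`Pl N`, `ord`, `sigmaPl`).

`N` a number field, `τ` an automorphism of `N` with `τ ^ p = 1`, `u ∈ N^×` fixed by `τ`.

PAPER PROOF of `exists_gamma`.  `f := sigmaPl τ` is a permutation of `Pl N` with `f^p = 1`
(`sigmaPl_mul`, `sigmaPl_one`), `ord (f P) (τ x) = ord P x` (`ord_sigmaPl`), so `ord (f P) u = ord P u`.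
`h := classNumber N = p^e h'`, `p ∤ h'`; choose `h''` with `h' h'' ≡ 1 mod p`.
For every `P` let `π_P` be as in `exists_class_power`.
Let `rep P` be a chosen representative of the `f`-orbit of `P`
(`Quotient.out` for `Equiv.Perm.SameCycle.setoid f`) and
`T := {P | ord P u ≠ 0 ∧ f P ≠ P ∧ rep P = P}` (finite: `finite_support_ord`).
`γ := ∏_{P ∈ T} π_P ^ (h'' * ord P u)`.  Then `ord Q γ = h h'' ord Q u` if `Q ∈ T`, `0` otherwise: (1).
`ord Q (∏_j τ^j γ) = ∑_{j<p} ord (f^{-j} Q) γ = h h'' ord Q u * #{j < p | f^{-j} Q ∈ T}`.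
* `ord Q u = 0`: everything vanishes.
* `f Q = Q`: no `f^{-j} Q = Q` is in `T`, the sum is `0` and `p ∣ ord Q u` by hypothesis.
* `f Q ≠ Q`, `ord Q u ≠ 0`: the `f^{-j} Q`, `j < p`, are pairwise distinct (`p` prime) and are the
  whole orbit; exactly one of them is `rep Q`; so the sum is `h h'' ord Q u` and
  `p^e ord Q u - p^e h' h'' ord Q u = p^e (1 - h' h'') ord Q u` is divisible by `p^(e+1)`.
-/

set_option autoImplicit false

namespace Fermat.Agent.CFT.Lift

open Fermat.Agent.S14 IsDedekindDomain NumberField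


/-- a point with `f^a x = f^b x`, `a < b < p`, `f^p = 1`, `p` prime, is fixed. -/
theorem fixed_of_pow_eq {X : Type*} {p : ℕ} (hp : p.Prime) (f : Equiv.Perm X) (hf : f ^ p = 1)
    {x : X} {a b : ℕ} (hab : a < b) (hb : b < p) (h : (f ^ a) x = (f ^ b) x) : f x = x := by
  have h1 : (f ^ (b - a)) x = x := by
    apply (f ^ a).injective
    rw [← Equiv.Perm.mul_apply, ← pow_add, Nat.add_sub_cancel' hab.le, h]
  have h2 : Function.IsPeriodicPt f (b - a) x := by
    rw [Function.IsPeriodicPt, Function.IsFixedPt, Equiv.Perm.iterate_eq_pow]; exact h1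
  have h3 : Function.IsPeriodicPt f p x := by
    rw [Function.IsPeriodicPt, Function.IsFixedPt, Equiv.Perm.iterate_eq_pow, hf]; rfl
  have h4 := h2.gcd h3
  have h5 : (b - a).gcd p = 1 := by
    rw [Nat.gcd_comm]
    exact (Nat.Prime.coprime_iff_not_dvd hp).2 (Nat.not_dvd_of_pos_of_lt (by omega) (by omega))
  rw [h5] at h4
  exact h4

theorem exists_orbit_section {X : Type*} {p : ℕ} (hp : p.Prime) (f : Equiv.Perm X) (hf : f ^ p = 1)
    (m : X → ℤ) (hm : ∀ x, m (f x) = m x) :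
    ∃ c : X → ℤ, (∀ x, m x = 0 → c x = 0) ∧
      ∀ x, f x ≠ x → ∑ j ∈ Finset.range p, c ((f ^ j).symm x) = m x := by
  classical
  let s := Equiv.Perm.SameCycle.setoid f
  let rep : X → X := fun x => (Quotient.mk s x).out
  have hrep : ∀ x, ∃ i : ℤ, (f ^ i) (rep x) = x := fun x => Quotient.mk_out (s := s) x
  have hrepf : ∀ x, rep (f x) = rep x := by
    intro x
    have : Quotient.mk s (f x) = Quotient.mk s x :=
      Quotient.sound (s := s) (Equiv.Perm.sameCycle_apply_left.2 (Equiv.Perm.SameCycle.refl f x))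
    simp only [rep, this]
  have hrepj : ∀ (j : ℕ) x, rep ((f ^ j) x) = rep x := by
    intro j
    induction j with
    | zero => intro x; simp
    | succ j ih => intro x; rw [pow_succ', Equiv.Perm.mul_apply, hrepf, ih]
  have hmj : ∀ (j : ℕ) x, m ((f ^ j) x) = m x := by
    intro j
    induction j with
    | zero => intro x; simp
    | succ j ih => intro x; rw [pow_succ', Equiv.Perm.mul_apply, hm, ih]
  have hrepj' : ∀ (j : ℕ) x, rep ((f ^ j).symm x) = rep x := by
    intro j x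
    rw [← hrepj j ((f ^ j).symm x), Equiv.apply_symm_apply]
  have hmj' : ∀ (j : ℕ) x, m ((f ^ j).symm x) = m x := by
    intro j x
    rw [← hmj j ((f ^ j).symm x), Equiv.apply_symm_apply]
  refine ⟨fun x => if rep x = x then m x else 0, fun x hx => by simp [hx], fun x hx => ?_⟩
  obtain ⟨i, hi⟩ := hrep x
  have hp0 : (p : ℤ) ≠ 0 := by exact_mod_cast hp.ne_zero
  have hfz : f ^ (p : ℤ) = 1 := by rw [zpow_natCast, hf]
  set j0 : ℕ := (i % p).toNat with hj0
  have hj0' : (j0 : ℤ) = i % p := Int.toNat_of_nonneg (Int.emod_nonneg _ hp0)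
  have hj0p : j0 < p := by
    have := Int.emod_lt_of_pos i (by exact_mod_cast hp.pos : (0 : ℤ) < p)
    omega
  have hfi : f ^ i = f ^ j0 := by
    rw [zpow_eq_zpow_emod i hfz, ← hj0', zpow_natCast]
  rw [hfi] at hi
  have hi' : (f ^ j0).symm x = rep x := (Equiv.symm_apply_eq _).2 hi.symm
  rw [Finset.sum_eq_single j0]
  · simp only [hrepj', hmj']
    rw [if_pos hi'.symm]
  · intro j hj hne
    have hjp := Finset.mem_range.1 hj
    simp only [hrepj', hmj']
    rw [if_neg]
    intro h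
    apply hx
    rw [← hi'] at h
    have h2 : (f ^ j) x = (f ^ j0) x := by
      have h3 := congrArg (fun y => (f ^ j) ((f ^ j0) y)) h
      simp only [Equiv.apply_symm_apply] at h3
      rw [h3, ← Equiv.Perm.mul_apply, ← pow_add, add_comm,
        pow_add, Equiv.Perm.mul_apply, Equiv.apply_symm_apply]
    rcases lt_or_gt_of_ne hne with h4 | h4
    · exact fixed_of_pow_eq hp f hf h4 hj0p h2
    · exact fixed_of_pow_eq hp f hf h4 hjp h2.symm
  · intro h; exact absurd (Finset.mem_range.2 hj0p) h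

variable {N : Type} [Field N] [NumberField N]

open FractionalIdeal in
/-- the `h`-th power of a prime ideal is principal (`h` = class number). -/
theorem exists_class_power (P : Pl N) :
    ∃ π : N, π ≠ 0 ∧ ord P π = (classNumber N : ℤ) ∧ ∀ P' : Pl N, P' ≠ P → ord P' π = 0 := by
  classical
  have hP0 : P.asIdeal ∈ nonZeroDivisors (Ideal (𝓞 N)) :=
    mem_nonZeroDivisors_iff_ne_zero.2 P.ne_bot
  have h1 : ClassGroup.mk0 (⟨P.asIdeal, hP0⟩ ^ classNumber N : nonZeroDivisors (Ideal (𝓞 N))) = 1 := by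
    rw [map_pow, classNumber]
    exact pow_card_eq_one
  rw [ClassGroup.mk0_eq_one_iff] at h1
  obtain ⟨a, ha⟩ := h1.principal
  have ha' : P.asIdeal ^ classNumber N = Ideal.span {a} := by
    simpa using ha
  have ha0 : a ≠ 0 := by
    rintro rfl
    rw [Set.singleton_zero, Ideal.span_zero] at ha'
    exact pow_ne_zero _ P.ne_bot ha'
  have ha0' : (a : N) ≠ 0 := by exact_mod_cast ha0
  have hspan : spanSingleton (nonZeroDivisors (𝓞 N)) (a : N) =
      ((P.asIdeal : Ideal (𝓞 N)) : FractionalIdeal (nonZeroDivisors (𝓞 N)) N) ^ classNumber N := by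
    rw [← coeIdeal_pow, ha', coeIdeal_span_singleton]
  refine ⟨a, ha0', ?_, fun P' hP' => ?_⟩
  · rw [ord_eq_count P ha0', hspan, count_pow, count_self]; ring
  · rw [ord_eq_count P' ha0', hspan, count_pow, count_maximal_coprime N P' hP'.symm]; ring


theorem sigmaPl_pow_eq (τ : N ≃ₐ[ℚ] N) (j : ℕ) : sigmaPl (τ ^ j) = (sigmaPl τ : Equiv.Perm (Pl N)) ^ j := by
  induction j with
  | zero => ext1 P; rw [pow_zero, pow_zero, sigmaPl_one]; rfl
  | succ j ih => ext1 P; rw [pow_succ', pow_succ', sigmaPl_mul, ih]; rfl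

theorem exists_gamma {p : ℕ} [Fact p.Prime] (τ : N ≃ₐ[ℚ] N) (hτ : τ ^ p = 1) (u : N) (hu : u ≠ 0)
    (hτu : τ u = u) :
    ∃ (e : ℕ) (γ : N), γ ≠ 0 ∧ (∀ P : Pl N, ((p ^ e : ℕ) : ℤ) ∣ ord P γ) ∧
      ∀ P : Pl N, (sigmaPl τ P = P → (p : ℤ) ∣ ord P u) →
        ((p ^ (e + 1) : ℕ) : ℤ) ∣
          ((p ^ e : ℕ) : ℤ) * ord P u - ord P (∏ j ∈ Finset.range p, (τ ^ j) γ) := by
  classical
  have hp : p.Prime := Fact.out
  set f : Equiv.Perm (Pl N) := sigmaPl τ with hf
  have hfp : f ^ p = 1 := by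
    rw [hf, ← sigmaPl_pow_eq, hτ]; ext1 P; rw [sigmaPl_one]; rfl
  have hm : ∀ P, ord (f P) u = ord P u := by
    intro P
    have := ord_sigmaPl τ P u
    rwa [hτu] at this
  obtain ⟨c, hc0, hc⟩ := exists_orbit_section hp f hfp (fun P => ord P u) hm
  obtain ⟨e, h', hph', hh⟩ := Nat.exists_eq_pow_mul_and_not_dvd (classNumber_ne_zero N) p hp.ne_one
  have hcop : IsCoprime (h' : ℤ) (p : ℤ) := by
    rw [Nat.isCoprime_iff_coprime]
    exact ((Nat.Prime.coprime_iff_not_dvd hp).2 hph').symm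
  obtain ⟨a, b, hab⟩ := hcop
  choose π hπ0 hπ1 hπ2 using fun P : Pl N => exists_class_power P
  set T : Finset (Pl N) := (finite_support_ord hu).toFinset with hT
  set γ : N := ∏ P ∈ T, π P ^ (a * c P) with hγ
  have hγ0 : γ ≠ 0 := Finset.prod_ne_zero_iff.2 fun P _ => zpow_ne_zero _ (hπ0 P)
  have hord : ∀ Q : Pl N, ord Q γ = (classNumber N : ℤ) * a * c Q := by
    intro Q
    rw [hγ, ord_prod Q T _ fun P _ => zpow_ne_zero _ (hπ0 P)]
    simp only [ord_zpow]
    rw [Finset.sum_eq_single Q]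
    · rw [hπ1]; ring
    · intro P _ hPQ
      rw [hπ2 P Q hPQ.symm, mul_zero]
    · intro hQ
      have : ord Q u = 0 := by
        by_contra h
        exact hQ ((Set.Finite.mem_toFinset _).2 h)
      rw [hc0 Q this]; ring
  have hcast : (classNumber N : ℤ) = ((p ^ e : ℕ) : ℤ) * h' := by
    rw [hh]; push_cast; ring
  refine ⟨e, γ, hγ0, fun P => ?_, fun Q hQ => ?_⟩
  · rw [hord, hcast]
    exact ⟨h' * a * c P, by ring⟩
  · have h1 : ord Q (∏ j ∈ Finset.range p, (τ ^ j) γ) =
        (classNumber N : ℤ) * a * ∑ j ∈ Finset.range p, c ((f ^ j).symm Q) := by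
      rw [ord_prod Q _ _ fun j _ => (map_ne_zero _).2 hγ0, Finset.mul_sum]
      refine Finset.sum_congr rfl fun j _ => ?_
      have h2 := ord_sigmaPl (τ ^ j) ((f ^ j).symm Q) γ
      rw [sigmaPl_pow_eq, ← hf, Equiv.apply_symm_apply] at h2
      rw [h2, hord]
    rw [h1, hcast]
    have hpe : ((p ^ (e + 1) : ℕ) : ℤ) = ((p ^ e : ℕ) : ℤ) * p := by push_cast; ring
    rw [hpe]
    by_cases hfix : f Q = Q
    · obtain ⟨k, hk⟩ := hQ hfix
      have hfj : ∀ j : ℕ, (f ^ j).symm Q = Q := by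
        intro j
        rw [Equiv.symm_apply_eq]
        induction j with
        | zero => simp
        | succ j ih => rw [pow_succ, Equiv.Perm.mul_apply, hfix, ← ih]
      simp only [hfj, Finset.sum_const, Finset.card_range, nsmul_eq_mul]
      rw [hk]
      exact ⟨k - h' * a * c Q, by ring⟩
    · rw [hc Q hfix]
      refine ⟨b * ord Q u, ?_⟩
      have : (1 : ℤ) - a * h' = b * p := by linarith
      calc ((p ^ e : ℕ) : ℤ) * ord Q u - ((p ^ e : ℕ) : ℤ) * h' * a * ord Q u
          = ((p ^ e : ℕ) : ℤ) * ord Q u * (1 - a * h') := by ring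
        _ = ((p ^ e : ℕ) : ℤ) * p * (b * ord Q u) := by rw [this]; ring

end Fermat.Agent.CFT.Lift
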