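import Fermat.Agent.CFT.Global.Lift.QSBasic

/-!
# CFT / Global / Lift : the `ord` dictionary (D2)  (WP LIFT-ORD)

PAPER PROOF.
* `ord_plA_eq_ordA` (= helper85's (D2)).  `v = plA L₁ q.2 A hA`, so `v.asIdeal = primeBelow (emb L₁) A`.
  `valuation_zpow_eq`: `|x|_A ^ e = |q|_A ^ ord_v x`, `e = ord_v q ≥ 1`.  By `valuation_eq_zpow_ordA`
  (`x ∈ QS S`), `|x|_A = |q|_A ^ ordA x`, so `e * ordA x = ord_v x` for all `x ∈ L₁^×`
  (`zpow_valuation_natCast_injective`).  Taking `x` a uniformiser at `v` (`ord_v x = 1`,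
  `S14.exists_ord_eq`) gives `e = 1`.   [`S14.ord v x = - log (v.valuation x)` by definition.]
-/

set_option autoImplicit false

namespace Fermat.Agent.CFT.Lift

open Fermat.Agent.CFT Fermat.Agent.CFT.Global Fermat.Agent.Bridge Fermat.Agent.S14 ExtCitation

variable {S : Finset Nat.Primes}

/-- (D2) the `ord` dictionary for a number field inside `QS S`, at a place outside `S`. -/
theorem ord_plA_eq_ordA (L₁ : IntermediateField ℚ Qb) [FiniteDimensional ℚ L₁] (hL₁ : L₁ ≤ QS S)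
    {q : Nat.Primes} (hq : q ∉ S) (A : ValuationSubring Qb) (hA : A.LiesOverPrime (q : ℕ))
    (x : ↥L₁) (hx : x ≠ 0) : ord (plA L₁ q.2 A hA) x = ordA A q (x : Qb) := by
  have key : ∀ z : ↥L₁, z ≠ 0 →
      ordA A q (z : Qb) * ord (plA L₁ q.2 A hA) (((q : ℕ) : ↥L₁)) = ord (plA L₁ q.2 A hA) z := by
    intro z hz
    have h1 := valuation_zpow_eq (φ := emb L₁) (A := A) (v := plA L₁ q.2 A hA) q.2 rfl hz
    have hz0 : (z : Qb) ≠ 0 := fun h => hz (Subtype.ext h)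
    have h2 : A.valuation (emb L₁ z) = A.valuation ((q : ℕ) : Qb) ^ ordA A q (z : Qb) :=
      valuation_eq_zpow_ordA (hL₁ z.2) hz0 hq hA
    rw [h2, ← zpow_mul] at h1
    exact zpow_valuation_natCast_injective q.2 hA h1
  obtain ⟨π, hπ0, hπ⟩ := exists_ord_eq {plA L₁ q.2 A hA} (fun _ => 1)
  have hπ1 : ord (plA L₁ q.2 A hA) π = 1 := hπ _ (Finset.mem_singleton_self _)
  have h3 := key π hπ0
  rw [hπ1] at h3
  have hq0 : ((q : ℕ) : ↥L₁) ≠ 0 := by exact_mod_cast q.2.ne_zero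
  have h4 := key _ hq0
  have h5 : ordA A q ((((q : ℕ) : ↥L₁) : ↥L₁) : Qb) = 1 :=
    ordA_eq_of q.2 hA (by simp)
  rw [h5, one_mul] at h4
  have h6 : ord (plA L₁ q.2 A hA) (((q : ℕ) : ↥L₁)) = 1 ∨
      ord (plA L₁ q.2 A hA) (((q : ℕ) : ↥L₁)) = -1 := by
    rcases Int.eq_one_or_neg_one_of_mul_eq_one' h3 with h | h
    · exact Or.inl h.2
    · exact Or.inr h.2
  have h7 : 0 ≤ ord (plA L₁ q.2 A hA) (((q : ℕ) : ↥L₁)) := by
    rw [ord, neg_nonneg]
    have h8 : (plA L₁ q.2 A hA).valuation ↥L₁ (((q : ℕ) : ↥L₁)) ≤ 1 := by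
      have := (plA L₁ q.2 A hA).valuation_le_one (K := ↥L₁) ((q : ℕ) : NumberField.RingOfIntegers ↥L₁)
      simpa using this
    have h9 : (plA L₁ q.2 A hA).valuation ↥L₁ (((q : ℕ) : ↥L₁)) ≠ 0 :=
      (Valuation.ne_zero_iff _).mpr hq0
    rw [← WithZero.log_one]
    exact (WithZero.log_le_log h9 one_ne_zero).mpr h8
  have h10 : ord (plA L₁ q.2 A hA) (((q : ℕ) : ↥L₁)) = 1 := by
    rcases h6 with h | h
    · exact h
    · rw [h] at h7; omega
  have := key x hx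
  rw [h10, mul_one] at this
  exact this.symm

end Fermat.Agent.CFT.Lift
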