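import Fermat.Agent.CFT.Global.Lift.Tower
import Fermat.Agent.CFT.Global.Lift.Ord
import Fermat.Agent.CFT.Global.Lift.Gamma

/-!
# CFT / Global / Lift : existence of `β` (capitulation of `p`-classes in `QS S`)  (WP LIFT-BETA)

PAPER PROOF.  Take `L₁, τ` from `exists_tower`, `u' : ↥L₁` the element `u`; `τ u' = u'` (`σ ∈ U` fixes `L`).
`exists_gamma τ _ u'` gives `e, γ`.  Let `β ∈ Qb` be a root of `X^(p^e) = γ` (`Qb` is algebraically
closed: `IsAlgClosed.exists_pow_nat_eq`).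
* `β ∈ QS S`: `root_mem_QS` (`t = e`), since `ordA A q γ = ord (plA ..) γ` (`ord_plA_eq_ordA`) is divisible
  by `p^e`.
* `s ∈ ker χ`: `(sβ/β)^(p^e) = sγ/γ = 1`.  Let `ε` be a `p`-th root of `sβ/β`; `ε^(p^(e+1)) = 1`, so
  `ε ∈ QS S` by `rootOfUnity_mem_QS`.
* `x := u / ∏_j σ^j β ∈ QS S` (`apply_mem_QS`), `x^(p^e) = u^(p^e) / ∏_j σ^j γ`, and `∏_j σ^j γ` is the image
  of `∏_j τ^j γ ∈ L₁`.  So `p^e * ordA x = p^e * ord_P u' - ord_P (∏_j τ^j γ)`, `P = plA L₁ _ A hA`, which is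
  divisible by `p^(e+1)`: the hypothesis of `exists_gamma` at `P` holds because
  `sigmaPl τ P = P → NonSplitAt χ A → p ∣ ordA A q u = ord_P u'`.  Hence `p ∣ ordA x`; any `p`-th root `ε`
  of `x` is in `QS S` by `root_mem_QS` (`t = 1`).
-/

set_option autoImplicit false

namespace Fermat.Agent.CFT.Lift

open Fermat.Agent.CFT Fermat.Agent.CFT.Global Fermat.Agent.Bridge Fermat.Agent.S14 ExtCitation

variable {S : Finset Nat.Primes}

theorem exists_beta {p : ℕ} [Fact p.Prime] (hpS : pPrime p ∈ S)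
    (L : IntermediateField ℚ Qb) [FiniteDimensional ℚ L] (hL : L.IsUnramifiedOutside S)
    (χ : ↥L.fixingSubgroup →* Multiplicative (ZMod p))
    (hχ : ∃ W ∈ ((levS S).sub L.fixingSubgroup).carrier, W ≤ χ.ker)
    (σ : ↥L.fixingSubgroup) (hσ : χ σ = Multiplicative.ofAdd 1)
    {u : Qb} (huL : u ∈ L) (hu0 : u ≠ 0)
    (hout : ∀ q : Nat.Primes, q ∉ S → ∀ A : ValuationSubring Qb, A.LiesOverPrime (q : ℕ) →
      NonSplitAt χ A → (p : ℤ) ∣ ordA A q u) :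
    ∃ β : Qb, β ≠ 0 ∧ β ∈ QS S ∧
      (∀ s ∈ χ.ker, ∃ ε ∈ QS S, ((s : ↥L.fixingSubgroup) : GQ) β = β * ε ^ p) ∧
      ∃ ε ∈ QS S, u = (∏ j ∈ Finset.range p, ((σ : GQ) ^ j) β) * ε ^ p := by
  have hp : p.Prime := Fact.out
  obtain ⟨L₁, hfd, τ, hLL₁, hL₁QS, hmem, hτ, hτp, hns⟩ := exists_tower L hL χ hχ σ hσ
  have hτpow : ∀ (j : ℕ) (x : ↥L₁), (((τ ^ j) x : ↥L₁) : Qb) = ((σ : GQ) ^ j) (x : Qb) := by
    intro j
    induction j with
    | zero => intro x; rfl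
    | succ k ih =>
      intro x
      rw [pow_succ', pow_succ', AlgEquiv.mul_apply, AlgEquiv.mul_apply, hτ, ih]
  set u' : ↥L₁ := ⟨u, hLL₁ huL⟩ with hu'
  have hu'0 : u' ≠ 0 := fun h => hu0 (congrArg Subtype.val h)
  have hτu' : τ u' = u' := Subtype.ext (by
    rw [hτ]
    exact (IntermediateField.mem_fixingSubgroup_iff L _).1 σ.2 u huL)
  obtain ⟨e, γ, hγ0, hγdiv, hγ⟩ := exists_gamma τ hτp u' hu'0 hτu'
  have hγ0' : (γ : Qb) ≠ 0 := fun h => hγ0 (Subtype.ext h)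
  have hpe : 0 < p ^ e := pow_pos hp.pos e
  obtain ⟨β, hβ⟩ := IsAlgClosed.exists_pow_nat_eq (γ : Qb) hpe
  have hβ0 : β ≠ 0 := by
    rintro rfl
    rw [zero_pow hpe.ne'] at hβ
    exact hγ0' hβ.symm
  have hβQS : β ∈ QS S := root_mem_QS hpS (hL₁QS γ.2) hγ0' hβ (fun q hq A hA => by
    rw [← ord_plA_eq_ordA L₁ hL₁QS hq A hA γ hγ0]
    exact hγdiv _)
  refine ⟨β, hβ0, hβQS, ?_, ?_⟩
  · intro s hs
    have hsγ : ((s : ↥L.fixingSubgroup) : GQ) (γ : Qb) = γ := (hmem _).1 γ.2 s hs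
    obtain ⟨ε, hε⟩ := IsAlgClosed.exists_pow_nat_eq (((s : ↥L.fixingSubgroup) : GQ) β / β) hp.pos
    refine ⟨ε, rootOfUnity_mem_QS hpS (t := e + 1) ?_, ?_⟩
    · rw [pow_succ', pow_mul, hε, div_pow, ← map_pow, hβ, hsγ, div_self hγ0']
    · rw [hε, mul_div_cancel₀ _ hβ0]
  · set Γ : ↥L₁ := ∏ j ∈ Finset.range p, (τ ^ j) γ with hΓ
    have hΓ0 : Γ ≠ 0 := by
      rw [hΓ, Finset.prod_ne_zero_iff]
      intro j _
      exact (map_ne_zero_iff _ (τ ^ j).injective).2 hγ0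
    have hΓ0' : (Γ : Qb) ≠ 0 := fun h => hΓ0 (Subtype.ext h)
    have hΓcoe : (Γ : Qb) = ∏ j ∈ Finset.range p, ((σ : GQ) ^ j) (γ : Qb) := by
      rw [hΓ, ← IntermediateField.coe_val, map_prod]
      exact Finset.prod_congr rfl (fun j _ => hτpow j γ)
    set B : Qb := ∏ j ∈ Finset.range p, ((σ : GQ) ^ j) β with hB
    have hB0 : B ≠ 0 := by
      rw [hB, Finset.prod_ne_zero_iff]
      intro j _
      exact (map_ne_zero_iff _ ((σ : GQ) ^ j).injective).2 hβ0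
    have hBQS : B ∈ QS S := prod_mem (fun j _ => apply_mem_QS _ hβQS)
    have hBpow : B ^ (p ^ e) = (Γ : Qb) := by
      rw [hB, ← Finset.prod_pow, hΓcoe]
      exact Finset.prod_congr rfl (fun j _ => by rw [← map_pow, hβ])
    have huQS : u ∈ QS S := hL₁QS (hLL₁ huL)
    have hxQS : u / B ∈ QS S := div_mem huQS hBQS
    have hx0 : u / B ≠ 0 := div_ne_zero hu0 hB0
    obtain ⟨ε, hε⟩ := IsAlgClosed.exists_pow_nat_eq (u / B) hp.pos
    refine ⟨ε, root_mem_QS hpS (t := 1) hxQS hx0 (by rw [pow_one]; exact hε) ?_, ?_⟩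
    · intro q hq A hA
      rw [pow_one]
      have h1 := ordA_pow hxQS hx0 (p ^ e) hq hA
      have h2 : (u / B) ^ (p ^ e) = u ^ (p ^ e) / (Γ : Qb) := by rw [div_pow, hBpow]
      have h3 := ordA_div (pow_mem huQS (p ^ e)) (pow_ne_zero _ hu0) (hL₁QS Γ.2) hΓ0' hq hA
      have h4 := ordA_pow huQS hu0 (p ^ e) hq hA
      have h5 := ord_plA_eq_ordA L₁ hL₁QS hq A hA u' hu'0
      have h6 := ord_plA_eq_ordA L₁ hL₁QS hq A hA Γ hΓ0
      have h7 := hγ (plA L₁ q.2 A hA) (fun hfix => by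
        rw [h5]
        exact hout q hq A hA (hns q hq A hA hfix))
      rw [h2, h3, h4] at h1
      rw [h5, h6] at h7
      have h8 : ((p ^ e : ℕ) : ℤ) * ordA A q u - ordA A q (Γ : Qb) =
          ((p ^ e : ℕ) : ℤ) * ordA A q (u / B) := h1
      rw [h8, pow_succ, Nat.cast_mul] at h7
      exact (mul_dvd_mul_iff_left (by exact_mod_cast hpe.ne')).1 h7
    · rw [hε, mul_div_cancel₀ _ hB0]

end Fermat.Agent.CFT.Lift
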