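import Fermat.Agent.CFT.Global.Lift.Beta
import Fermat.Agent.CFT.Global.Lift.Abstract
import Fermat.Agent.CFT.Br.Kummer

/-!
# CFT / Global / Lift : the lifting theorem (GC4-lift), helper85's target shape  (WP LIFT-MAIN)

A cyclic class `(u, χ)` over `L ⊆ QS S` which is unramified outside `S` (`p ∣ ord_A u` at the places
`A` outside `S` where `χ` is non-split) is the image of a class in `H^2(G_{L,S}, μ_p)`.
-/

set_option autoImplicit false

namespace Fermat.Agent.CFT.Lift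

open Fermat.Agent.CFT Fermat.Agent.CFT.Global Fermat.Agent.Bridge Fermat.Agent.S14 ExtCitation

variable {S : Finset Nat.Primes}

theorem exists_zmod_cocycle {G : Type} [Group G] {𝒰 : Levels G} {Ω : Type} [Field Ω]
    {ρ : Representation ℤ G (Additive Ωˣ)} {p : ℕ} [Fact p.Prime] {ζ : Ωˣ}
    (hζ : IsPrimitiveRoot ζ p) (hζG : ∀ g, ρ g (Additive.ofMul ζ) = Additive.ofMul ζ)
    {c : G × G → Additive Ωˣ} (hc : c ∈ Z2 𝒰 ρ) (hp : p • c = 0) :
    ∃ x ∈ Z2 𝒰 (1 : Representation (ZMod p) G (ZMod p)), Br.muEmb ζ ∘ x = c := by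
  obtain ⟨x, hx⟩ := Br.exists_comp_muEmb hζ c (fun g => congrFun hp g)
  have hfix : ∀ g (a : ZMod p), ρ g (Br.muEmb ζ a) = Br.muEmb ζ a := by
    intro g a
    have : Br.muEmb ζ a = a.val • Additive.ofMul ζ := rfl
    rw [this, map_nsmul, hζG]
  have hLC : 𝒰.LC2 x := by
    obtain ⟨U, hU, hh⟩ := hc.2
    refine ⟨U, hU, fun g₁ g₂ s₁ s₂ h₁ h₂ => Br.muEmb_injective hζ ?_⟩
    have := hh g₁ g₂ s₁ s₂ h₁ h₂
    rw [← hx] at this
    exact this
  refine ⟨x, ⟨?_, hLC⟩, hx⟩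
  rw [SetLike.mem_coe, LinearMap.mem_ker]
  funext g
  apply Br.muEmb_injective hζ
  have h1 := congrFun (LinearMap.mem_ker.1 hc.1) g
  rw [← hx] at h1
  simp only [d23_apply, Function.comp_apply, hfix, Pi.zero_apply] at h1
  simp only [d23_apply, Pi.zero_apply]
  rw [Br.muEmb_sub hζ, Br.muEmb_add hζ, Br.muEmb_sub hζ, Br.muEmb_zero hζ]
  exact h1

/-- the value in `Qb` of an element of `Additive (QS S)ˣ` -/
noncomputable def valQ (S : Finset Nat.Primes) : Additive (↥(QS S))ˣ →+ Additive Qb :=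
  MonoidHom.toAdditive
    (((algebraMap ↥(QS S) Qb : ↥(QS S) →+* Qb) : ↥(QS S) →* Qb).comp (Units.coeHom ↥(QS S)))

theorem valQ_injective : Function.Injective (valQ S) := by
  intro x y h
  apply Additive.toMul.injective
  apply Units.ext
  apply Subtype.ext
  exact congrArg Additive.toMul h

theorem valQ_mkQS {x : Qb} (hx : x ∈ QS S) (hx0 : x ≠ 0) :
    valQ S (mkQS hx hx0) = Additive.ofMul x := rfl

theorem valQ_rep (g : GQ) (x : Additive (↥(QS S))ˣ) :
    valQ S (qsRep S g x) = Additive.ofMul (g (valQ S x).toMul) := rfl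

theorem exists_sigma {G : Type} [Group G] {p : ℕ} [Fact p.Prime]
    (χ : G →* Multiplicative (ZMod p)) {g : G} (hg : χ g ≠ 1) :
    ∃ σ : G, χ σ = Multiplicative.ofAdd 1 := by
  have h0 : Multiplicative.toAdd (χ g) ≠ 0 := fun h => hg (Multiplicative.toAdd.injective h)
  refine ⟨g ^ ((Multiplicative.toAdd (χ g))⁻¹).val, ?_⟩
  rw [map_pow]
  apply Multiplicative.toAdd.injective
  rw [toAdd_pow, toAdd_ofAdd, nsmul_eq_mul, ZMod.natCast_zmod_val, inv_mul_cancel₀ h0]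

theorem exists_lift_cyc {p : ℕ} [Fact p.Prime] (hpS : pPrime p ∈ S)
    (L : IntermediateField ℚ Qb) [FiniteDimensional ℚ L] (hL : L.IsUnramifiedOutside S)
    (ζ : (↥(QS S))ˣ) (hζ : IsPrimitiveRoot ζ p) (hζL : ((ζ : ↥(QS S)) : Qb) ∈ L)
    (χ : ↥L.fixingSubgroup →* Multiplicative (ZMod p))
    (hχ : ∃ W ∈ ((levS S).sub L.fixingSubgroup).carrier, W ≤ χ.ker)
    {u : Qb} (huL : u ∈ L) (huS : u ∈ QS S) (hu0 : u ≠ 0)
    (hout : ∀ q : Nat.Primes, q ∉ S → ∀ A : ValuationSubring Qb, A.LiesOverPrime (q : ℕ) →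
      NonSplitAt χ A → (p : ℤ) ∣ ordA A q u) :
    ∃ x ∈ Z2 ((levS S).sub L.fixingSubgroup)
        (1 : Representation (ZMod p) ↥L.fixingSubgroup (ZMod p)),
      Br.muEmb ζ ∘ x - cyc χ (mkQS huS hu0) ∈
        B2 ((levS S).sub L.fixingSubgroup) (resRep (qsRep S) L.fixingSubgroup) := by
  have hp : NeZero p := ⟨(Fact.out : p.Prime).ne_zero⟩
  have hsm : IsSmooth ((levS S).sub L.fixingSubgroup) (resRep (qsRep S) L.fixingSubgroup) :=
    (isSmooth_qsRep (S := S)).sub L.fixingSubgroup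
  by_cases htriv : ∀ g, χ g = 1
  · refine ⟨0, Submodule.zero_mem _, ?_⟩
    have h1 : Br.muEmb ζ ∘ (0 : ↥L.fixingSubgroup × ↥L.fixingSubgroup → ZMod p) - cyc χ (mkQS huS hu0) = 0 := by
      funext ⟨g, h⟩
      have hk : ∀ g, g ∈ χ.ker := fun g => MonoidHom.mem_ker.2 (htriv g)
      simp only [Pi.sub_apply, Function.comp_apply, Pi.zero_apply, cyc_apply,
        carry_ker_right χ g (hk h), zero_smul, sub_zero]
      exact Br.muEmb_zero hζ
    rw [h1]
    exact Submodule.zero_mem _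
  push Not at htriv
  obtain ⟨g₀, hg₀⟩ := htriv
  obtain ⟨σ, hσ⟩ := exists_sigma χ hg₀
  obtain ⟨β, hβ0, hβS, hβker, ε, hεS, hε⟩ := exists_beta hpS L hL χ hχ σ hσ huL hu0 hout
  have ha : ∀ g : ↥L.fixingSubgroup, resRep (qsRep S) L.fixingSubgroup g (mkQS huS hu0) = mkQS huS hu0 := by
    intro g
    apply valQ_injective
    change Additive.ofMul ((g : GQ) u) = Additive.ofMul u
    rw [(IntermediateField.mem_fixingSubgroup_iff L _).1 g.2 u huL]
  have hb : ∀ s ∈ χ.ker, ∃ e, resRep (qsRep S) L.fixingSubgroup s (mkQS hβS hβ0) - mkQS hβS hβ0 = p • e := by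
    intro s hs
    obtain ⟨ε', hε'S, hε'⟩ := hβker s hs
    have hε'0 : ε' ≠ 0 := by
      rintro rfl
      rw [zero_pow hp.out, mul_zero] at hε'
      exact hβ0 ((map_eq_zero _).1 hε')
    refine ⟨mkQS hε'S hε'0, ?_⟩
    rw [sub_eq_iff_eq_add']
    apply valQ_injective
    rw [map_add, map_nsmul]
    change Additive.ofMul (((s : ↥L.fixingSubgroup) : GQ) β) = Additive.ofMul β + p • Additive.ofMul ε'
    rw [hε']
    rfl
  have hprod : ∀ n : ℕ, valQ S (pnorm (resRep (qsRep S) L.fixingSubgroup) σ n (mkQS hβS hβ0)) =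
      Additive.ofMul (∏ j ∈ Finset.range n, ((σ : GQ) ^ j) β) := by
    intro n
    rw [pnorm, map_sum, ofMul_prod]
    rfl
  have hN : ∃ e, mkQS huS hu0 - pnorm (resRep (qsRep S) L.fixingSubgroup) σ p (mkQS hβS hβ0) = p • e := by
    have hε0 : ε ≠ 0 := by
      rintro rfl
      rw [zero_pow hp.out, mul_zero] at hε
      exact hu0 hε
    refine ⟨mkQS hεS hε0, ?_⟩
    rw [sub_eq_iff_eq_add']
    apply valQ_injective
    rw [map_add, map_nsmul, hprod]
    change Additive.ofMul u = _ + p • Additive.ofMul ε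
    rw [hε]
    rfl
  obtain ⟨φ, hφ, hZ, hpx⟩ := exists_lift hsm hσ hχ ha hb hN
  have hζG : ∀ g : ↥L.fixingSubgroup, resRep (qsRep S) L.fixingSubgroup g (Additive.ofMul ζ) = Additive.ofMul ζ := by
    intro g
    apply valQ_injective
    change Additive.ofMul ((g : GQ) ((ζ : ↥(QS S)) : Qb)) = Additive.ofMul ((ζ : ↥(QS S)) : Qb)
    rw [(IntermediateField.mem_fixingSubgroup_iff L _).1 g.2 _ hζL]
  obtain ⟨x, hx, hxe⟩ := exists_zmod_cocycle hζ hζG hZ hpx
  refine ⟨x, hx, φ, hφ, ?_⟩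
  rw [hxe]
  abel

end Fermat.Agent.CFT.Lift
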