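import Fermat.Agent.CFT.Global.GC.Setup
import Fermat.Agent.Common.PlaceBridgeKummer

/-!
# CFT / Global / Lift : basic facts on `QS S` (WP LIFT-QS)

All statements are about helper85's `QS S`, `ordA` (`GC/Setup.lean`).  Tools: helper34's
`Common/PlaceBridgeKummer.lean` (`apply_eq_of_mem_inertia_of_pow`, `exists_zpow_of_isUnramifiedOutside`,
`zpow_valuation_natCast_injective`, `normalHull`, `apply_eq_of_mem_normalHull`).

PAPER PROOFS.
* `isUnramifiedOutside_adjoin` : `F = ℚ(x)` is finite over `ℚ` (`x` is algebraic); an element `g` of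
  an inertia group outside `S` fixes `x`, hence `F` (`apply_eq_of_mem_adjoin_simple`).
* `exists_level_of_mem_QS` : `F' = normalHull ℚ(x)`: finite, normal, fixed by the inertia groups
  outside `S` (`apply_eq_of_mem_normalHull`), so `F'.fixingSubgroup ∈ (levS S).carrier`.
* `mem_QS_of_level` : `U = F.fixingSubgroup`, `F.IsUnramifiedOutside S`: inertia outside `S` is
  contained in `U`.
* `valuation_eq_zpow_ordA` : `exists_zpow_of_isUnramifiedOutside` for `F = ℚ(x)` + `dif_pos`/`choose_spec`.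
* `ordA_eq_of` : `zpow_valuation_natCast_injective`.
* `root_mem_QS` : `g ∈ I_A`, `A ∣ q ∉ S`; `ordA A q x = p^t n`; `|y|^(p^t) = |x| = |q^n|^(p^t)` so
  `|y| = |q^n|` (`pow_left_injective` in a linearly ordered group with zero), and
  `apply_eq_of_mem_inertia_of_pow` with `c = q^n` (`q ≠ p` because `p ∈ S`).
-/

set_option autoImplicit false

namespace Fermat.Agent.CFT.Lift

open Fermat.Agent.CFT Fermat.Agent.CFT.Global Fermat.Agent.Bridge ExtCitation

variable {S : Finset Nat.Primes}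

theorem isUnramifiedOutside_adjoin {x : Qb} (hx : x ∈ QS S) :
    (IntermediateField.adjoin ℚ {x}).IsUnramifiedOutside S := by
  refine ⟨IntermediateField.adjoin.finiteDimensional (Algebra.IsIntegral.isIntegral _),
    fun q hq A hA σ hσ => ?_⟩
  rw [IntermediateField.mem_fixingSubgroup_iff]
  intro z hz
  exact apply_eq_of_mem_adjoin_simple (hx q hq A hA σ hσ) hz

theorem le_QS_of_isUnramifiedOutside {F : IntermediateField ℚ Qb} (hF : F.IsUnramifiedOutside S) :
    F ≤ QS S := by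
  intro x hx q hq A hA g hg
  exact (IntermediateField.mem_fixingSubgroup_iff _ _).mp (hF.2 q hq A hA hg) x hx

theorem exists_level_of_mem_QS {x : Qb} (hx : x ∈ QS S) :
    ∃ U ∈ (levS S).carrier, ∀ s ∈ U, s x = x := by
  have hF := isUnramifiedOutside_adjoin hx
  have hfd := hF.1
  refine ⟨(normalHull (IntermediateField.adjoin ℚ {x})).fixingSubgroup,
    ⟨normalHull (IntermediateField.adjoin ℚ {x}), ⟨?_, fun q hq A hA σ hσ => ?_⟩, ?_, rfl⟩,
    fun s hs => ?_⟩
  · exact normalClosure.is_finiteDimensional ℚ (IntermediateField.adjoin ℚ {x}) Qb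
  · rw [IntermediateField.mem_fixingSubgroup_iff]
    intro z hz
    exact apply_eq_of_mem_normalHull hF hq hA hσ hz
  · exact normalClosure.normal ℚ (IntermediateField.adjoin ℚ {x}) Qb
  · exact (IntermediateField.mem_fixingSubgroup_iff _ _).mp hs x
      (le_normalHull _ (IntermediateField.mem_adjoin_simple_self ℚ x))

theorem mem_QS_of_level {x : Qb} {U : Subgroup GQ} (hU : U ∈ (levS S).carrier)
    (h : ∀ s ∈ U, s x = x) : x ∈ QS S := by
  obtain ⟨F, hF, _, rfl⟩ := hU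
  intro q hq A hA g hg
  exact h g (hF.2 q hq A hA hg)

theorem isSmooth_qsRep : IsSmooth (levS S) (qsRep S) := by
  intro v
  obtain ⟨U, hU, h⟩ := exists_level_of_mem_QS (S := S)
    (x := (((v.toMul : (↥(QS S))ˣ) : ↥(QS S)) : Qb)) (SetLike.coe_mem _)
  refine ⟨U, hU, fun s hs => ?_⟩
  apply Additive.toMul.injective
  apply Units.ext
  apply Subtype.ext
  exact h s hs

/-- (D1) -/
theorem valuation_eq_zpow_ordA {x : Qb} (hx : x ∈ QS S) (hx0 : x ≠ 0) {q : Nat.Primes}
    (hq : q ∉ S) {A : ValuationSubring Qb} (hA : A.LiesOverPrime (q : ℕ)) :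
    A.valuation x = A.valuation ((q : ℕ) : Qb) ^ ordA A q x := by
  have h := exists_zpow_of_isUnramifiedOutside (isUnramifiedOutside_adjoin hx)
    (IntermediateField.mem_adjoin_simple_self ℚ x) hx0 hq hA
  rw [ordA, dif_pos h]
  exact h.choose_spec

theorem ordA_eq_of {q : ℕ} (hq : q.Prime) {A : ValuationSubring Qb} (hA : A.LiesOverPrime q)
    {x : Qb} {n : ℤ} (h : A.valuation x = A.valuation (q : Qb) ^ n) : ordA A q x = n := by
  have h' : ∃ n : ℤ, A.valuation x = A.valuation (q : Qb) ^ n := ⟨n, h⟩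
  rw [ordA, dif_pos h']
  exact zpow_valuation_natCast_injective hq hA (h'.choose_spec.symm.trans h)

theorem ordA_one {q : ℕ} (hq : q.Prime) {A : ValuationSubring Qb} (hA : A.LiesOverPrime q) :
    ordA A q 1 = 0 :=
  ordA_eq_of hq hA (by rw [map_one, zpow_zero])

theorem ordA_mul {x y : Qb} (hx : x ∈ QS S) (hx0 : x ≠ 0) (hy : y ∈ QS S) (hy0 : y ≠ 0)
    {q : Nat.Primes} (hq : q ∉ S) {A : ValuationSubring Qb} (hA : A.LiesOverPrime (q : ℕ)) :
    ordA A q (x * y) = ordA A q x + ordA A q y := by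
  have hq0 : A.valuation ((q : ℕ) : Qb) ≠ 0 :=
    (A.valuation.ne_zero_iff).mpr (by exact_mod_cast q.2.ne_zero)
  refine ordA_eq_of q.2 hA ?_
  rw [map_mul, valuation_eq_zpow_ordA hx hx0 hq hA, valuation_eq_zpow_ordA hy hy0 hq hA,
    zpow_add₀ hq0]

theorem ordA_div {x y : Qb} (hx : x ∈ QS S) (hx0 : x ≠ 0) (hy : y ∈ QS S) (hy0 : y ≠ 0)
    {q : Nat.Primes} (hq : q ∉ S) {A : ValuationSubring Qb} (hA : A.LiesOverPrime (q : ℕ)) :
    ordA A q (x / y) = ordA A q x - ordA A q y := by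
  have hq0 : A.valuation ((q : ℕ) : Qb) ≠ 0 :=
    (A.valuation.ne_zero_iff).mpr (by exact_mod_cast q.2.ne_zero)
  refine ordA_eq_of q.2 hA ?_
  rw [map_div₀, valuation_eq_zpow_ordA hx hx0 hq hA, valuation_eq_zpow_ordA hy hy0 hq hA,
    zpow_sub₀ hq0]

theorem ordA_pow {x : Qb} (hx : x ∈ QS S) (hx0 : x ≠ 0) (n : ℕ)
    {q : Nat.Primes} (hq : q ∉ S) {A : ValuationSubring Qb} (hA : A.LiesOverPrime (q : ℕ)) :
    ordA A q (x ^ n) = n * ordA A q x := by
  refine ordA_eq_of q.2 hA ?_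
  rw [map_pow, valuation_eq_zpow_ordA hx hx0 hq hA, ← zpow_natCast, ← zpow_mul, mul_comm]

/-- **Kummer criterion in `QS S`** (GK1): a `p^t`-th root of `x ∈ QS S` lies in `QS S` as soon as
all the valuations of `x` outside `S` are divisible by `p^t`. -/
theorem root_mem_QS {p : ℕ} [Fact p.Prime] (hpS : pPrime p ∈ S) {x y : Qb} {t : ℕ}
    (hx : x ∈ QS S) (hx0 : x ≠ 0) (hy : y ^ (p ^ t) = x)
    (h : ∀ q : Nat.Primes, q ∉ S → ∀ A : ValuationSubring Qb, A.LiesOverPrime (q : ℕ) →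
      ((p ^ t : ℕ) : ℤ) ∣ ordA A q x) : y ∈ QS S := by
  intro q hq A hA g hg
  obtain ⟨n, hn⟩ := h q hq A hA
  have hp : p.Prime := Fact.out
  have hqp : (q : ℕ) ≠ p := by
    intro hqp
    exact hq ((Subtype.ext hqp : q = pPrime p) ▸ hpS)
  have hcop : Nat.Coprime (q : ℕ) (p ^ t) :=
    Nat.Coprime.pow_right t ((Nat.coprime_primes q.2 hp).mpr hqp)
  have hq0 : ((q : ℕ) : Qb) ≠ 0 := by exact_mod_cast q.2.ne_zero
  have hm0 : p ^ t ≠ 0 := pow_ne_zero _ hp.ne_zero
  refine apply_eq_of_mem_inertia_of_pow q.2 hA hcop hg hy (hx q hq A hA g hg)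
    (c := ((q : ℕ) : Qb) ^ n) (zpow_ne_zero _ hq0) (by rw [map_zpow₀, map_natCast]) ?_
  have h1 : A.valuation y ^ (p ^ t) = (A.valuation (((q : ℕ) : Qb) ^ n)) ^ (p ^ t) := by
    rw [← map_pow, hy, valuation_eq_zpow_ordA hx hx0 hq hA, hn, map_zpow₀, ← zpow_natCast (_ ^ n),
      ← zpow_mul, mul_comm]
  exact (pow_left_inj₀ zero_le zero_le hm0).mp h1

/-- roots of unity of `p`-power order lie in `QS S` -/
theorem rootOfUnity_mem_QS {p : ℕ} [Fact p.Prime] (hpS : pPrime p ∈ S) {y : Qb} {t : ℕ}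
    (hy : y ^ (p ^ t) = 1) : y ∈ QS S := by
  refine root_mem_QS hpS (QS S).one_mem one_ne_zero hy fun q _ A hA => ?_
  rw [ordA_one q.2 hA]
  exact dvd_zero _

end Fermat.Agent.CFT.Lift
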