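import Fermat.Agent.CFT.Global.Lift.QSBasic

/-!
# CFT / Global / Lift : the cyclic extension cut out by `χ` (WP LIFT-TOWER)

`U = L.fixingSubgroup`, `χ : U → ℤ/p` trivial on an `S`-level, `χ σ = 1`.
`L₁ :=` fixed field of `ker χ` (as a subgroup of `GQ`), `τ := σ|L₁`.

PAPER PROOFS.
* `exists_tower`.  `H := χ.ker.map U.subtype ≤ GQ`, `L₁ := IntermediateField.fixedField H`.
  - `hχ` gives `F` normal, unramified outside `S` with `F.fixingSubgroup ⊓ U ≤ H`; so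
    `(F ⊔ L).fixingSubgroup ≤ H`, `L₁ ≤ F ⊔ L` is finite over `ℚ` and unramified outside `S`
    (`IsUnramifiedOutside.sup`, `.of_le`), hence `L₁ ≤ QS S`.  `H ≤ U` gives `L ≤ L₁`.
  - `H` contains the open subgroup `(F ⊔ L).fixingSubgroup`, so it is open, hence closed, and
    `L₁.fixingSubgroup = H` (`InfiniteGalois.fixingSubgroup_fixedField`).
  - `σ` normalises `H` (`ker χ` is normal in `U`), so `σ L₁ = L₁`: `τ x := ⟨σ x, _⟩`,
    inverse `⟨σ⁻¹ x, _⟩`.  `σ^p ∈ H` so `τ^p = 1`.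
  - if `sigmaPl τ P = P`, `P = plA L₁ _ A hA`: then `primeBelow (emb L₁) (σ⁻¹ • A) = primeBelow (emb L₁) A`
    [`x ∈ primeBelow (σ⁻¹ • A) ↔ σ x ∈ 𝔪_A ↔ τ x ∈ P ↔ x ∈ (sigmaPl τ)⁻¹ P = P`], so by
    `exists_smul_eq_of_primeBelow_eq` there is `n ∈ fixer (emb L₁) = H` with `n • (σ⁻¹ • A) = A`
    (or the symmetric statement); then `g := n σ⁻¹ ∈ U` is in `D_A` and `χ g = χ σ⁻¹ ≠ 1`.
-/

set_option autoImplicit false

namespace Fermat.Agent.CFT.Lift

open Fermat.Agent.CFT Fermat.Agent.CFT.Global Fermat.Agent.Bridge Fermat.Agent.S14 ExtCitation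

variable {S : Finset Nat.Primes}

/-- Galois correspondence for a subgroup containing the fixing subgroup of a finite extension -/
theorem mem_of_fixes_fixedField {H : Subgroup GQ} {E : IntermediateField ℚ Qb}
    [FiniteDimensional ℚ E] (hE : E.fixingSubgroup ≤ H) {g : GQ}
    (hg : ∀ x : Qb, (∀ s ∈ H, s x = x) → g x = x) : g ∈ H := by
  have := isGalois_Qb
  have hopen : IsOpen (H : Set GQ) :=
    Subgroup.isOpen_mono hE (IntermediateField.fixingSubgroup_isOpen E)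
  have hclosed : IsClosed (H : Set GQ) := H.isClosed_of_isOpen hopen
  have h1 := InfiniteGalois.fixingSubgroup_fixedField (k := ℚ) (K := Qb) ⟨H, hclosed⟩
  have h2 : g ∈ (IntermediateField.fixedField H).fixingSubgroup := by
    rw [IntermediateField.mem_fixingSubgroup_iff]
    intro x hx
    rw [IntermediateField.mem_fixedField_iff] at hx
    exact hg x hx
  have h3 : g ∈ (IntermediateField.fixedField
      (ClosedSubgroup.mk H hclosed : ClosedSubgroup GQ).toSubgroup).fixingSubgroup := h2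
  rw [h1] at h3
  exact h3

theorem exists_tower {p : ℕ} [Fact p.Prime] (L : IntermediateField ℚ Qb) [FiniteDimensional ℚ L]
    (hL : L.IsUnramifiedOutside S)
    (χ : ↥L.fixingSubgroup →* Multiplicative (ZMod p))
    (hχ : ∃ W ∈ ((levS S).sub L.fixingSubgroup).carrier, W ≤ χ.ker)
    (σ : ↥L.fixingSubgroup) (hσ : χ σ = Multiplicative.ofAdd 1) :
    ∃ (L₁ : IntermediateField ℚ Qb) (_ : FiniteDimensional ℚ L₁) (τ : ↥L₁ ≃ₐ[ℚ] ↥L₁),
      L ≤ L₁ ∧ L₁ ≤ QS S ∧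
      (∀ x : Qb, x ∈ L₁ ↔ ∀ s ∈ χ.ker, ((s : ↥L.fixingSubgroup) : GQ) x = x) ∧
      (∀ x : ↥L₁, ((τ x : ↥L₁) : Qb) = (σ : GQ) (x : Qb)) ∧ τ ^ p = 1 ∧
      ∀ (q : Nat.Primes), q ∉ S → ∀ (A : ValuationSubring Qb) (hA : A.LiesOverPrime (q : ℕ)),
        sigmaPl τ (plA L₁ q.2 A hA) = plA L₁ q.2 A hA → NonSplitAt χ A := by
  classical
  have hgal := isGalois_Qb
  obtain ⟨W, ⟨V, ⟨F, hF, hFn, rfl⟩, rfl⟩, hW⟩ := hχ
  set H : Subgroup GQ := χ.ker.map L.fixingSubgroup.subtype with hH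
  have hmemH : ∀ g : GQ, g ∈ H ↔ ∃ hg : g ∈ L.fixingSubgroup, (⟨g, hg⟩ : ↥L.fixingSubgroup) ∈ χ.ker := by
    intro g
    constructor
    · rintro ⟨s, hs, rfl⟩
      exact ⟨s.2, hs⟩
    · rintro ⟨hg, hs⟩
      exact ⟨⟨g, hg⟩, hs, rfl⟩
  have hFL : (F ⊔ L).fixingSubgroup ≤ H := by
    intro g hg
    rw [IntermediateField.fixingSubgroup_sup] at hg
    exact (hmemH g).2 ⟨hg.2, hW (Subgroup.mem_subgroupOf.2 hg.1)⟩
  have hunr : (F ⊔ L).IsUnramifiedOutside S := hF.sup hL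
  have hfd : FiniteDimensional ℚ ↥(F ⊔ L) := hunr.1
  set L₁ : IntermediateField ℚ Qb := IntermediateField.fixedField H with hL₁
  have hmemL₁ : ∀ x : Qb, x ∈ L₁ ↔ ∀ s ∈ χ.ker, ((s : ↥L.fixingSubgroup) : GQ) x = x := by
    intro x
    rw [hL₁, IntermediateField.mem_fixedField_iff]
    constructor
    · intro h s hs
      exact h _ ⟨s, hs, rfl⟩
    · rintro h _ ⟨s, hs, rfl⟩
      exact h s hs
  have hL₁le : L₁ ≤ F ⊔ L := by
    intro x hx
    rw [← InfiniteGalois.fixedField_fixingSubgroup (F ⊔ L), IntermediateField.mem_fixedField_iff]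
    rw [hL₁, IntermediateField.mem_fixedField_iff] at hx
    exact fun g hg => hx g (hFL hg)
  have hunr₁ : L₁.IsUnramifiedOutside S := hunr.of_le hL₁le
  have hLL₁ : L ≤ L₁ := by
    intro x hx
    rw [hmemL₁]
    intro s _
    exact (IntermediateField.mem_fixingSubgroup_iff L _).1 s.2 x hx
  -- `U` stabilises `L₁`
  have hstab : ∀ (g : ↥L.fixingSubgroup) (x : Qb), x ∈ L₁ → (g : GQ) x ∈ L₁ := by
    intro g x hx
    rw [hmemL₁] at hx ⊢
    intro s hs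
    have h1 : g⁻¹ * s * g ∈ χ.ker := by
      have := (inferInstance : χ.ker.Normal).conj_mem s hs g⁻¹
      simpa using this
    have h2 := hx _ h1
    have h3 : ((g⁻¹ * s * g : ↥L.fixingSubgroup) : GQ) x = (g : GQ)⁻¹ ((s : GQ) ((g : GQ) x)) := rfl
    rw [h3] at h2
    have h4 := congrArg (g : GQ) h2
    rwa [← AlgEquiv.mul_apply, mul_inv_cancel, AlgEquiv.one_apply] at h4
  let τ : ↥L₁ ≃ₐ[ℚ] ↥L₁ :=
    { toFun := fun x => ⟨(σ : GQ) x.1, hstab σ x.1 x.2⟩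
      invFun := fun x => ⟨((σ⁻¹ : ↥L.fixingSubgroup) : GQ) x.1, hstab σ⁻¹ x.1 x.2⟩
      left_inv := fun x => Subtype.ext (by
        change ((σ : GQ)⁻¹ * (σ : GQ)) x.1 = x.1
        rw [inv_mul_cancel, AlgEquiv.one_apply])
      right_inv := fun x => Subtype.ext (by
        change ((σ : GQ) * (σ : GQ)⁻¹) x.1 = x.1
        rw [mul_inv_cancel, AlgEquiv.one_apply])
      map_mul' := fun x y => Subtype.ext (map_mul (σ : GQ) x.1 y.1)
      map_add' := fun x y => Subtype.ext (map_add (σ : GQ) x.1 y.1)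
      commutes' := fun r => Subtype.ext ((σ : GQ).commutes r) }
  have hτ : ∀ x : ↥L₁, ((τ x : ↥L₁) : Qb) = (σ : GQ) (x : Qb) := fun _ => rfl
  have hτpow : ∀ (j : ℕ) (x : ↥L₁), (((τ ^ j) x : ↥L₁) : Qb) = ((σ : GQ) ^ j) (x : Qb) := by
    intro j
    induction j with
    | zero => intro x; rfl
    | succ k ih =>
      intro x
      rw [pow_succ', pow_succ', AlgEquiv.mul_apply, AlgEquiv.mul_apply, hτ, ih]
  have hσp : σ ^ p ∈ χ.ker := by
    rw [MonoidHom.mem_ker, map_pow, hσ, ← ofAdd_nsmul, nsmul_eq_mul, mul_one, ZMod.natCast_self,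
      ofAdd_zero]
  refine ⟨L₁, hunr₁.1, τ, hLL₁, le_QS_of_isUnramifiedOutside hunr₁, hmemL₁, hτ, ?_, ?_⟩
  · ext x
    rw [hτpow, AlgEquiv.one_apply]
    exact (hmemL₁ x.1).1 x.2 _ hσp
  · intro q hq A hA hfix
    have := hunr₁.1
    obtain ⟨σ', hσ'D, hσ'⟩ := exists_lift_decomposition (φ := emb L₁) q.2 hA (τ : ↥L₁ ≃+* ↥L₁) (by
      intro c
      have h1 := mem_sigmaPl_iff τ (plA L₁ q.2 A hA) c
      rw [hfix] at h1
      exact h1.symm)
    have hσ'U : σ' ∈ L.fixingSubgroup := by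
      rw [IntermediateField.mem_fixingSubgroup_iff]
      intro x hx
      have h1 := hσ' ⟨x, hLL₁ hx⟩
      have h2 : (σ : GQ) x = x := (IntermediateField.mem_fixingSubgroup_iff L _).1 σ.2 x hx
      exact h1.trans h2
    refine ⟨⟨σ', hσ'U⟩, hσ'D, ?_⟩
    have hmem : (σ : GQ)⁻¹ * σ' ∈ H := by
      refine mem_of_fixes_fixedField hFL (fun x hx => ?_)
      have hx₁ : x ∈ L₁ := by
        rw [hL₁, IntermediateField.mem_fixedField_iff]
        exact hx
      have h1 : σ' x = (σ : GQ) x := hσ' ⟨x, hx₁⟩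
      rw [AlgEquiv.mul_apply, h1, ← AlgEquiv.mul_apply, inv_mul_cancel, AlgEquiv.one_apply]
    obtain ⟨hg, hker⟩ := (hmemH _).1 hmem
    have h2 : (⟨(σ : GQ)⁻¹ * σ', hg⟩ : ↥L.fixingSubgroup) = σ⁻¹ * ⟨σ', hσ'U⟩ := rfl
    rw [h2, MonoidHom.mem_ker, map_mul, map_inv, inv_mul_eq_one] at hker
    rw [← hker, hσ]
    intro h0
    have h1 : (1 : ZMod p) = 0 := Multiplicative.ofAdd.injective h0
    exact one_ne_zero h1

end Fermat.Agent.CFT.Lift
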